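/-
Programme MS (S12), chapter CORE (helper1): **the place-level core of Mazur's key step**, unconditional.

The body of `MZ/TOP/S15Assemble9.s15_of_inputs` after the moduli bridge, as a statement about an
arbitrary `G_ℚ`-fixed place `x` of `FF p = ℚbar(j, j_p)` (`p ∉ {2,3,5,7,13}`):

* `place_core_zero` : `x` of type `0` at (places over) `2` and `3` ⇒ `x` is not of type `∞` at any
  `A ∣ ℓ`, `ℓ ∉ {2, 3, p}`, `p ≤ 2ℓ - 1`;
* `place_core_inf`  : the Atkin–Lehner swap: `x` of type `∞` at `2` and `3` ⇒ `x` is not of type `0`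
  at any such `A ∣ ℓ`.
* `isZeroType_wp`, `galois_smul_wp` : the Fricke involution exchanges the two types and preserves
  `G_ℚ`-fixed places.

Inputs (all landed): `S15Inputs9.redCommProp`, `S15InputsB9.selBoundProp`,
`InertDivFinal7.inertDiv_prime`.
-/
import Mathlib
import Fermat.Agent.MZ.TOP.S15Assemble9
import Fermat.Agent.MZ.TOP.S15Inputs9
import Fermat.Agent.MZ.TOP.S15InputsB9
import Fermat.Agent.MZ.LOCP.InertDivFinal7
import Fermat.Agent.MZ.MOD.Unique2
import Fermat.Agent.ORD.IFACEN.FrickeGal9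

set_option autoImplicit false
set_option linter.unusedSectionVars false
set_option linter.unusedVariables false
set_option linter.style.longLine false
set_option linter.style.haveILetI false
set_option synthInstance.maxHeartbeats 400000
set_option maxHeartbeats 1000000

open AlgebraicCurve ModularCurve
open Fermat.Agent.X0
open Fermat.Agent.PT.GLUE.Objects21
open Fermat.Agent.TW.DEF.Basic1
open Fermat.Agent.MZ.HECKE.RingD5
open Fermat.Agent.MZ.CUSP.CuspPlaces1
open Fermat.Agent.MZ.MOD.Types2 Fermat.Agent.MZ.MOD.Red2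
open Fermat.Agent.MZ.TOP.Kred9 Fermat.Agent.MZ.TOP.RankZero9
open Fermat.Agent.MZ.SEL.LocalCond8
open Fermat.Agent.MZ.TOP.S15Assemble9

namespace Fermat.Agent.MS.CORE.PlaceCore1

noncomputable section

local notation "Qb" => AlgebraicClosure ℚ

/-- **(P1)** in the propositional form of `S15Assemble9`. -/
theorem inertDivProp : InertDivProp := by
  intro p l _ _ hp' hl hlp
  have hp2 : p ≠ 2 := by
    rintro rfl
    simp at hp'
  exact Fermat.Agent.MZ.LOCP.InertDivFinal7.inertDiv_prime hp2 hl hlp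

/-- **the place-level core**: a `G_ℚ`-fixed place of `FF p` of type `0` at `2` and at `3` is not of
type `∞` at any other prime `ℓ ≠ p` with `p ≤ 2ℓ - 1`. -/
theorem place_core_zero {p : ℕ} [NeZero p] (hp : p.Prime)
    (hp' : p ∉ ({2, 3, 5, 7, 13} : Finset ℕ)) (x : Place Kbar (FF p))
    (hxfix : ∀ σ : Kbar ≃ₐ[ℚ] Kbar, arithmeticGalois (modularFunctionFieldFull p) σ • x = x)
    (A2 A3 : ValuationSubring Qb) (hA2 : A2.LiesOverPrime 2) (hA3 : A3.LiesOverPrime 3)
    (hz2 : IsZeroType p A2 x) (hz3 : IsZeroType p A3 x)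
    {ℓ : ℕ} (hℓ : ℓ.Prime) (hℓp : ℓ ≠ p) (hℓ2 : ℓ ≠ 2) (hℓ3 : ℓ ≠ 3) (hE0 : p ≤ 2 * ℓ - 1)
    (A : ValuationSubring Qb) (hA : A.LiesOverPrime ℓ) : ¬ IsInfType p A x := by
  classical
  intro hinf
  have hRedComm : RedCommProp := Fermat.Agent.MZ.TOP.S15Inputs9.redCommProp
  have hSelB : SelBoundProp := Fermat.Agent.MZ.TOP.S15InputsB9.selBoundProp
  have hInert : InertDivProp := inertDivProp
  haveI : Fact p.Prime := ⟨hp⟩
  have hp11 : 11 ≤ p := by
    simp only [Finset.mem_insert, Finset.mem_singleton, not_or] at hp'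
    by_contra hlt
    have hlt' : p < 11 := not_le.mp hlt
    interval_cases p <;> first | omega | (exfalso; revert hp; decide)
  -- the Hecke ring and the Eisenstein ideal
  set D : ℕ := 6 * ℓ * (p - 1) with hDdef
  have hD : D ≠ 0 := by
    rw [hDdef]
    exact Nat.mul_ne_zero (Nat.mul_ne_zero (by norm_num) hℓ.ne_zero) (by omega)
  obtain ⟨P, l', hPmax, hl', hdvd, hlt, hl'P, hann, hEis⟩ :=
    Fermat.Agent.MZ.HECKE.CuspEisD5.exists_eisenstein_maximal (p := p) D hp hp'
  haveI : P.IsMaximal := hPmax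
  have hPprime : P.IsPrime := hPmax.isPrime
  have hPtop : P ≠ ⊤ := hPprime.ne_top
  haveI : Fact l'.Prime := ⟨hl'⟩
  have hl'p : l' ≠ p := by
    have := Nat.le_of_dvd (by omega) hdvd
    omega
  have hl'D : l' ∣ D := by
    rw [hDdef]
    exact Dvd.dvd.mul_left hdvd _
  have hl'ℓ : l' < ℓ := by
    obtain ⟨k, hk⟩ := hdvd
    have hk2 : 2 ≤ k := by
      by_contra hk'
      have hk1 : k ≤ 1 := by omega
      interval_cases k
      · omega
      · omega
    have : 2 * l' ≤ p - 1 := by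
      rw [hk]
      calc 2 * l' = l' * 2 := Nat.mul_comm _ _
        _ ≤ l' * k := Nat.mul_le_mul_left _ hk2
    omega
  have hℓP : ((ℓ : ℕ) : R p D) ∉ P :=
    natCast_not_mem hPtop ((Nat.coprime_primes hl' hℓ).mpr (Nat.ne_of_lt hl'ℓ)) hl'P
  -- the auxiliary prime `r ∈ {2, 3}`, `r ≠ l'`
  obtain ⟨r, Ar, hr, hrl', hr6, hAr, hzero⟩ : ∃ (r : ℕ) (Ar : ValuationSubring Qb), r.Prime ∧ r ≠ l' ∧
      r ∣ 6 ∧ Ar.LiesOverPrime r ∧ IsZeroType p Ar x := by
    by_cases h : l' = 3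
    · exact ⟨2, A2, Nat.prime_two, by omega, by norm_num, hA2, hz2⟩
    · exact ⟨3, A3, Nat.prime_three, fun h' => h h'.symm, by norm_num, hA3, hz3⟩
  have hr6' : r ≤ 6 := Nat.le_of_dvd (by norm_num) hr6
  have hrp : r ≠ p := by omega
  have hrP : ((r : ℕ) : R p D) ∉ P :=
    natCast_not_mem hPtop ((Nat.coprime_primes hl' hr).mpr (Ne.symm hrl')) hl'P
  haveI : Fact r.Prime := ⟨hr⟩
  -- the kernels of reduction
  have hrp' : ¬ r ∣ p := fun hd => hrp ((Nat.prime_dvd_prime_iff_eq hr hp).mp hd)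
  have hℓp' : ¬ ℓ ∣ p := fun hd => hℓp ((Nat.prime_dvd_prime_iff_eq hℓ hp).mp hd)
  obtain ⟨Dr⟩ := exists_redData (p := p) hr hrp' Ar hAr
  obtain ⟨Dl⟩ := exists_redData (p := p) hℓ hℓp' A hA
  -- the classes
  set y : JZero p := Pic0.mk ⟨_, sub_single_mem_degZero x (cuspZero p)⟩ with hy
  have hyr : y ∈ Kred Dr := mem_Kred_zeroType hp hr hrp hAr Dr x hzero _
  have hyc : y + cuspClass p = Pic0.mk ⟨_, sub_single_mem_degZero x (cuspInf p)⟩ := by
    rw [hy, cuspClass, ← Pic0.mk_add]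
    congr 1
    apply Subtype.ext
    show (Finsupp.single x (1 : ℤ) - Finsupp.single (cuspZero p) 1) +
      (Finsupp.single (cuspZero p) 1 - Finsupp.single (cuspInf p) 1) =
        Finsupp.single x 1 - Finsupp.single (cuspInf p) 1
    abel
  have hyl : y + cuspClass p ∈ Kred Dl := by
    rw [hyc]
    exact mem_Kred_infType hp hℓ hℓp hA Dl x hinf _
  -- rationality
  have hyM : y ∈ FixedPoints.addSubgroup (Qb ≃ₐ[ℚ] Qb) (JZero p) := by
    intro σ
    rw [galois_smul_pic0_def, hy, SemilinearAut.pic0_smul_mk]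
    congr 1
    apply Subtype.ext
    rw [SemilinearAut.coe_degZeroSMulHom]
    show arithmeticGalois (modularFunctionFieldFull p) σ •
      (Finsupp.single x (1 : ℤ) - Finsupp.single (cuspZero p) 1) = _
    rw [smul_sub, SemilinearAut.smul_single, SemilinearAut.smul_single, hxfix σ,
      arithmeticGalois_smul_cuspZero]
  -- (F)
  obtain ⟨C, hC⟩ := hSelB (p := p) (D := D) (l := l') hD hl'D P hl'p hl'P hEis
  have hF0 := rank_zero_of_sel_bound (p := p) (D := D) (l := l') hD P hl'p hl'P hEis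
    (hInert p l' hp' hl' hl'p) C hC
  have hF : ∀ z ∈ FixedPoints.addSubgroup (Qb ≃ₐ[ℚ] Qb) (JZero p), ∃ t : R p D, t ∉ P ∧
      ∃ m : ℕ, 0 < m ∧ m • (t • z) = 0 := by
    intro z hzM
    obtain ⟨t, htP, n, hn, hnt⟩ := hF0 ⟨z, hzM⟩
    refine ⟨t, htP, n, hn, ?_⟩
    have := congrArg (fun w : ↥(JQsub p D) => (w : JZero p)) hnt
    simpa using this
  -- Hecke stability
  have hstab : ∀ {r' : ℕ} {A' : ValuationSubring Qb}, r'.Prime → r' ≠ p → A'.LiesOverPrime r' →
      r' ∣ D → ∀ (D' : RedData r' p A') (t : R p D), ∀ z ∈ Kred D', t • z ∈ Kred D' := by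
    intro r' A' hr' hr'p hA' hr'D D' t
    refine stable_of_hecke (Kred D') (fun q hq z hzK => ?_) t
    refine hRedComm hp hr' hr'p hA' D' q (fun hdvd => hq ?_) z hzK
    -- `q ∣ 6 p r'` ⟹ `q ∣ p D`
    have h6D : 6 ∣ D := by
      rw [hDdef, Nat.mul_assoc]
      exact Dvd.intro _ rfl
    rcases (Nat.Prime.dvd_mul q.2).mp hdvd with h | h
    · rcases (Nat.Prime.dvd_mul q.2).mp h with h | h
      · exact Dvd.dvd.mul_left (h.trans h6D) _
      · exact Dvd.dvd.mul_right h _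
    · exact Dvd.dvd.mul_left (h.trans hr'D) _
  have hrD : r ∣ D := by
    rw [hDdef, Nat.mul_assoc]
    exact Dvd.dvd.mul_right hr6 _
  have hℓD : ℓ ∣ D := by
    rw [hDdef]
    exact Dvd.dvd.mul_right (Dvd.intro_left 6 rfl) _
  exact Fermat.Agent.MZ.TOP.Endgame9.endgame P hPprime
    (FixedPoints.addSubgroup (Qb ≃ₐ[ℚ] Qb) (JZero p)) (cuspClass p) y
    (cuspClass_mem_fixedPoints p) hyM hann hF r ℓ hr.ne_one hℓ.ne_one hrP hℓP (Kred Dr) (Kred Dl)
    (hstab hr hrp hAr hrD Dr) (hstab hℓ hℓp hA hℓD Dl)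
    (fun z hzK m hm hmz => Kred_inj hr hrp' hAr Dr hzK hm hmz)
    (fun z hzK m hm hmz => Kred_inj hℓ hℓp' hA Dl hzK hm hmz) hyr hyl


open Fermat.Agent.MZ.MOD.Unique2 in
/-- the Fricke involution commutes with the arithmetic Galois action on places. -/
theorem galois_smul_wp {p : ℕ} [NeZero p] (σ : Kbar ≃ₐ[ℚ] Kbar) (x : Place Kbar (FF p)) :
    arithmeticGalois (modularFunctionFieldFull p) σ • (wp p • x) =
      wp p • (arithmeticGalois (modularFunctionFieldFull p) σ • x) := by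
  rw [← mul_smul, ← mul_smul]
  congr 1
  apply Subtype.ext
  apply Prod.ext
  · apply RingEquiv.ext
    intro f
    show arithmeticGalois (modularFunctionFieldFull p) σ • (wp p • f) =
      wp p • (arithmeticGalois (modularFunctionFieldFull p) σ • f)
    rw [wp_smul, wp_smul]
    exact (Fermat.Agent.ORD.IFACEN.FrickeGal9.frickeBar_smul p σ f).symm
  · show SemilinearAut.baseAut (arithmeticGalois (modularFunctionFieldFull p) σ * wp p) =
      SemilinearAut.baseAut (wp p * arithmeticGalois (modularFunctionFieldFull p) σ)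
    have h1 : SemilinearAut.baseAut (wp p) = 1 := rfl
    rw [SemilinearAut.baseAut_mul, SemilinearAut.baseAut_mul, h1, mul_one, one_mul]

open Fermat.Agent.MZ.MOD.Unique2 in
/-- the Fricke involution exchanges the two types (the converse of `Unique2.isInfType_wp`). -/
theorem isZeroType_wp {p : ℕ} [NeZero p] {A : ValuationSubring Kbar} {x : Place Kbar (FF p)}
    (hx : IsInfType p A x) : IsZeroType p A (wp p • x) := by
  obtain ⟨α, β, hα, hxα, hxβ, hval⟩ := hx
  have hvα : 1 < A.valuation α := by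
    rw [← not_le, A.valuation_le_one_iff]; exact hα
  have hβ : β ∉ A := by
    rw [← A.valuation_le_one_iff, not_le, hval]
    exact one_lt_pow₀ hvα (NeZero.ne p)
  exact ⟨β, α, hβ, by rw [ord_wp_jF]; exact hxβ, by rw [ord_wp_jNF]; exact hxα, hval.symm⟩

open Fermat.Agent.MZ.MOD.Unique2 in
/-- **the place-level core, swapped**: a `G_ℚ`-fixed place of `FF p` of type `∞` at `2` and at `3` is
not of type `0` at any other prime `ℓ ≠ p` with `p ≤ 2ℓ - 1`. -/
theorem place_core_inf {p : ℕ} [NeZero p] (hp : p.Prime)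
    (hp' : p ∉ ({2, 3, 5, 7, 13} : Finset ℕ)) (x : Place Kbar (FF p))
    (hxfix : ∀ σ : Kbar ≃ₐ[ℚ] Kbar, arithmeticGalois (modularFunctionFieldFull p) σ • x = x)
    (A2 A3 : ValuationSubring Qb) (hA2 : A2.LiesOverPrime 2) (hA3 : A3.LiesOverPrime 3)
    (hi2 : IsInfType p A2 x) (hi3 : IsInfType p A3 x)
    {ℓ : ℕ} (hℓ : ℓ.Prime) (hℓp : ℓ ≠ p) (hℓ2 : ℓ ≠ 2) (hℓ3 : ℓ ≠ 3) (hE0 : p ≤ 2 * ℓ - 1)
    (A : ValuationSubring Qb) (hA : A.LiesOverPrime ℓ) : ¬ IsZeroType p A x := by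
  intro hz
  refine place_core_zero hp hp' (wp p • x) (fun σ => ?_) A2 A3 hA2 hA3 (isZeroType_wp hi2)
    (isZeroType_wp hi3) hℓ hℓp hℓ2 hℓ3 hE0 A hA (isInfType_wp hz)
  rw [galois_smul_wp, hxfix σ]

end

end Fermat.Agent.MS.CORE.PlaceCore1
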